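import Fermat.Agent.RT.Tate.Limit
import Fermat.Agent.RT.LocalFromPoints
import Fermat.Agent.FlatModel.Inertia
import Fermat.Agent.LocalDef.EllipticGood
import Fermat.Agent.LocalDef.ModelQuot
import Fermat.Agent.LocalDef.HopfOfModel

/-!
# The `p`-adic representation is flat at `p` for good reduction at `p`
-/

set_option autoImplicit false
set_option linter.unusedSectionVars false

noncomputable section

open IsLocalRing Matrix WeierstrassCurve FA.EC FA.Frob FA.Deform FA.LocalDef FA.TW
open scoped WeierstrassCurve.Affine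

namespace FA.RT.Tate

local notation "Qb" => AlgebraicClosure ℚ
local notation "GQ" => AlgebraicClosure ℚ ≃ₐ[ℚ] AlgebraicClosure ℚ
local notation "M2" => Matrix (Fin 2) (Fin 2)

variable {p : ℕ} [hp : Fact p.Prime] {W : WeierstrassCurve ℤ} [(ratCurve W).IsElliptic]
  {O : Type} [CommRing O] [IsLocalRing O]

/-- The representation with coefficients in `O` is continuous. -/
theorem TateBasis.isContRep (B : TateBasis p W) (ι : ℤ_[p] →+* O)
    (hpO : (p : O) ∈ maximalIdeal O) : IsContRep (mapRep ι B.rep) := by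
  intro n
  obtain ⟨L, hL, h⟩ := B.exists_field n
  refine ⟨L, hL, fun σ hσ i j => ?_⟩
  have h1 : B.rep σ i j - (1 : M2 ℤ_[p]) i j ∈ Ideal.span {(p : ℤ_[p]) ^ n} := by
    rw [← PadicInt.ker_toZModPow, RingHom.mem_ker, map_sub, sub_eq_zero]
    have := congrFun (congrFun (h σ hσ) i) j
    rw [Matrix.map_apply] at this
    rw [this, Matrix.one_apply, Matrix.one_apply, apply_ite (PadicInt.toZModPow n), map_one,
      map_zero]
  have h2 : (mapRep ι B.rep σ - 1) i j = ι (B.rep σ i j - (1 : M2 ℤ_[p]) i j) := by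
    rw [map_sub, Matrix.sub_apply, Matrix.one_apply, Matrix.one_apply, apply_ite ι, map_one,
      map_zero]
    rfl
  rw [h2]
  obtain ⟨c, hc⟩ := Ideal.mem_span_singleton'.mp h1
  rw [← hc, map_mul, map_pow, map_natCast]
  exact Ideal.mul_mem_left _ _ (Ideal.pow_mem_pow hpO n)

/-- **Good reduction at `p` gives finite flat models of all the finite levels.** -/
theorem TateBasis.hasFlatModels [Finite (ResidueField O)] (B : TateBasis p W) (ι : ℤ_[p] →+* O)
    (hpO : (p : O) ∈ maximalIdeal O) (hgood : W.IsGoodPrimeFor p) {A : ValuationSubring Qb}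
    (hA : A.LiesOverPrime p) (hc : IsContRep (mapRep ι B.rep)) :
    HasFlatModels (ofMatrix (mapRep ι B.rep) hc) A := by
  classical
  intro I hI inst
  obtain ⟨n, hn⟩ := FA.FlatModel.exists_pow_maximalIdeal_le I
  have hpn : ((p ^ n : ℕ) : O) ∈ I := by
    rw [Nat.cast_pow]; exact hn (Ideal.pow_mem_pow hpO n)
  let _ : Fintype (O ⧸ I) := Fintype.ofFinite _
  have := finite_torsion (ratCurve W) (n := p ^ n) (pow_ne_zero _ hp.out.ne_zero)
  let T := Submodule.torsionBy ℤ ((ratCurve W)⁄Qb).Point ((p ^ n : ℕ) : ℤ)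
  let _ : Fintype T := Fintype.ofFinite _
  let Q := (Fin 2 → O) ⧸ (I • (⊤ : Submodule O (Fin 2 → O)))
  let _ : Fintype Q := inst
  let emb : (Fin 2 → ℤ_[p]) →+ (Fin 2 → O) := ι.toAddMonoidHom.compLeft (Fin 2)
  have hker : ∀ v, B.φ n v = 0 → (Submodule.Quotient.mk (emb v) : Q) = 0 := fun v hv => by
    rw [Submodule.Quotient.mk_eq_zero]
    have hmem : ∀ i, ι (v i) ∈ I := fun i => by
      have h := (B.ker n v).mp hv i
      rw [← RingHom.mem_ker, PadicInt.ker_toZModPow, Ideal.mem_span_singleton] at h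
      obtain ⟨c, hc⟩ := h
      rw [hc, map_mul, map_pow, map_natCast, ← Nat.cast_pow]
      exact Ideal.mul_mem_right _ _ hpn
    have : emb v = ι (v 0) • (Pi.single 0 1 : Fin 2 → O) + ι (v 1) • Pi.single 1 1 := by
      funext i; fin_cases i <;> simp [emb]
    rw [this]
    exact add_mem (Submodule.smul_mem_smul (hmem 0) Submodule.mem_top)
      (Submodule.smul_mem_smul (hmem 1) Submodule.mem_top)
  choose vec hvec using fun x : T => B.surj n x.1 ((mem_torsion_iff W).mp x.2)
  have hwd : ∀ (x : T) v, B.φ n v = x.1 →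
      (Submodule.Quotient.mk (emb (vec x)) : Q) = Submodule.Quotient.mk (emb v) := fun x v hv => by
    rw [← sub_eq_zero, ← Submodule.Quotient.mk_sub, ← map_sub]
    exact hker _ (by rw [map_sub, hvec, hv, sub_self])
  let Φ : T →+ Q := AddMonoidHom.mk' (fun x => Submodule.Quotient.mk (emb (vec x))) fun x y => by
    rw [← Submodule.Quotient.mk_add, ← map_add]
    exact hwd _ _ (by rw [map_add, hvec, hvec]; rfl)
  let Ψ : ((O ⧸ I) → T) →+ Q :=
    AddMonoidHom.mk' (fun f => ∑ c : O ⧸ I, (Quotient.out c : O) • Φ (f c)) fun f g => by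
      simp only [Pi.add_apply, map_add, smul_add, Finset.sum_add_distrib]
  have hone : ∀ (i : Fin 2), ∃ x : T, Φ x = Submodule.Quotient.mk (Pi.single i 1) := fun i => by
    refine ⟨⟨B.φ n (Pi.single i 1), (mem_torsion_iff W).mpr (B.nsmul_phi n _)⟩, ?_⟩
    refine (hwd _ _ rfl).trans (congrArg _ (funext fun j => ?_))
    fin_cases i <;> fin_cases j <;> simp [emb]
  have hsurj : Function.Surjective Ψ := by
    intro y
    obtain ⟨u, rfl⟩ := Submodule.Quotient.mk_surjective _ y
    have hsingle : ∀ (c : O) (x : T), Ψ (Pi.single (Ideal.Quotient.mk I c) x) = c • Φ x := by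
      intro c x
      show ∑ d : O ⧸ I, _ = _
      rw [Finset.sum_eq_single (Ideal.Quotient.mk I c) (fun d _ hd => by
        rw [Pi.single_eq_of_ne hd, map_zero, smul_zero]) (fun h => absurd (Finset.mem_univ _) h),
        Pi.single_eq_same]
      obtain ⟨z, hz⟩ := Submodule.Quotient.mk_surjective _ (Φ x)
      rw [← hz, ← Submodule.Quotient.mk_smul, ← Submodule.Quotient.mk_smul, ← sub_eq_zero,
        ← Submodule.Quotient.mk_sub, Submodule.Quotient.mk_eq_zero, ← sub_smul]
      exact Submodule.smul_mem_smul (Ideal.Quotient.eq.mp (Ideal.Quotient.mk_out _))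
        Submodule.mem_top
    obtain ⟨x₀, hx₀⟩ := hone 0
    obtain ⟨x₁, hx₁⟩ := hone 1
    refine ⟨Pi.single (Ideal.Quotient.mk I (u 0)) x₀ + Pi.single (Ideal.Quotient.mk I (u 1)) x₁, ?_⟩
    rw [map_add, hsingle, hsingle, hx₀, hx₁, ← Submodule.Quotient.mk_smul,
      ← Submodule.Quotient.mk_smul, ← Submodule.Quotient.mk_add]
    refine congrArg _ ?_
    exact (funext fun i => by fin_cases i <;> simp :
      u 0 • (Pi.single 0 1 : Fin 2 → O) + u 1 • Pi.single 1 1 = u)
  refine (HasModel.pi (ι := O ⧸ I) fun _ =>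
    hasModel_torsion_good W hp.out hA hgood (n := p ^ n) (pow_pos hp.out.pos n)).of_surjective Ψ
      hsurj fun σ _ f => ?_
  let act : Q →ₗ[O] Q := (ofMatrix (mapRep ι B.rep) hc).levelAction I σ
  show ∑ c : O ⧸ I, (Quotient.out c : O) • Φ (σ • f c) =
    act (∑ c : O ⧸ I, (Quotient.out c : O) • Φ (f c))
  rw [map_sum]
  refine Finset.sum_congr rfl fun c _ => ?_
  rw [map_smul act]
  refine congrArg _ ?_
  show Φ (σ • f c) = Submodule.Quotient.mk ((ofMatrix (mapRep ι B.rep) hc).ρ σ (emb (vec (f c))))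
  refine (hwd _ (B.rep σ *ᵥ vec (f c)) (by rw [← B.rep_spec, hvec]; rfl)).trans
    (congrArg _ ?_)
  rw [ofMatrix_rho_apply hc]
  exact funext fun i => RingHom.map_mulVec ι (B.rep σ) (vec (f c)) i

/-- **Good reduction at `p` gives a flat representation.** -/
theorem TateBasis.isFlatAt [Finite (ResidueField O)] (B : TateBasis p W) (ι : ℤ_[p] →+* O)
    (hpO : (p : O) ∈ maximalIdeal O) (hgood : W.IsGoodPrimeFor p)
    (hc : IsContRep (mapRep ι B.rep)) : (ofMatrix (mapRep ι B.rep) hc).IsFlatAt p := by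
  obtain ⟨A, hA⟩ := Deform.exists_liesOverPrime hp.out
  exact isFlatAt_of_hasModel hp.out hA _ inferInstance (B.hasFlatModels ι hpO hgood hA hc)

end FA.RT.Tate
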