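import Fermat.Agent.RT.Tate.MultNode

/-!
# The `p`-adic representation at a place of multiplicative reduction

In a basis whose first vector spans the torsion of nonsingular reduction the decomposition group
is upper triangular, with a sign on the quotient which is trivial on inertia.
-/

set_option autoImplicit false
set_option linter.unusedSectionVars false

noncomputable section

open Matrix WeierstrassCurve FA.Frob FA.EC FA.Local
open scoped Pointwise WeierstrassCurve.Affine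

namespace FA.RT.Tate

local notation "Qb" => AlgebraicClosure ℚ
local notation "GQ" => AlgebraicClosure ℚ ≃ₐ[ℚ] AlgebraicClosure ℚ
local notation "M2" => Matrix (Fin 2) (Fin 2)

variable {p : ℕ} [hp : Fact p.Prime] {W : WeierstrassCurve ℤ} [(ratCurve W).IsElliptic]
  {q : ℕ} {A : ValuationSubring Qb} {r : Qb}

/-- The torsion of nonsingular reduction is cut out by a vector. -/
theorem NodeData.exists_line_vec (N : NodeData W q A r) (hp2 : p ≠ 2) (B : TateBasis p W) :
    ∃ v₀ : Fin 2 → ℤ_[p], (∃ i, IsUnit (v₀ i)) ∧ (∀ n, B.φ n v₀ ∈ N.e0Sub) ∧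
      ∀ n w, B.φ n w ∈ N.e0Sub →
        ∃ k : ℕ, ∀ i, PadicInt.toZModPow n (w i) = PadicInt.toZModPow n ((k • v₀) i) := by
  classical
  have hpp := hp.out
  have hodd := hpp.odd_of_ne_two hp2
  obtain ⟨f, hf⟩ := N.exists_class_fun hpp hp2
  let Tp := {x : Pts W // p • x = 0}
  let eT : Tp ≃ Submodule.torsionBy ℤ ((ratCurve W)⁄Qb).Point (p : ℤ) :=
    Equiv.subtypeEquivRight fun x => (mem_torsion_iff W).symm
  have := finite_torsion (ratCurve W) hpp.ne_zero
  have : Finite Tp := Finite.of_equiv _ eT.symm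
  let _ : Fintype Tp := Fintype.ofFinite Tp
  have hTp : Fintype.card Tp = p ^ 2 := by
    rw [← Nat.card_eq_fintype_card, Nat.card_congr eT, natCard_torsion (ratCurve W) hpp.ne_zero]
  have hopt : Fintype.card (Option (Fin ((p - 1) / 2) × Bool)) = p := by
    rw [Fintype.card_option, Fintype.card_prod, Fintype.card_fin, Fintype.card_bool]
    obtain ⟨k, hk⟩ := hodd
    omega
  have hin : ∀ a : Tp, p • a.1 ∈ N.e0Sub := fun a => by rw [a.2]; exact zero_mem _
  -- at most `p` points in each class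
  let S := {x : Pts W // p • x = 0 ∧ x ∈ N.e0Sub}
  have : Finite S := Finite.of_injective (fun x : S => (⟨x.1, x.2.1⟩ : Tp))
    fun a b h => Subtype.ext (congrArg (fun t : Tp => t.1) h)
  have hfib : ∀ b ∈ Finset.univ.image (fun a : Tp => f a.1),
      (Finset.univ.filter fun a : Tp => f a.1 = b).card ≤ p := by
    intro b hb
    obtain ⟨a₀, -, rfl⟩ := Finset.mem_image.mp hb
    refine le_trans ?_ (N.card_e0_torsion_le hp2)
    rw [← Fintype.card_coe, ← Nat.card_eq_fintype_card]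
    refine Nat.card_le_card_of_injective (fun a => (⟨a.1.1 - a₀.1,
      by rw [nsmul_sub, a.1.2, a₀.2, sub_zero],
      hf _ _ (hin a.1) (hin a₀) (Finset.mem_filter.mp a.2).2⟩ : S)) fun a a' h => ?_
    exact Subtype.ext (Subtype.ext (sub_left_inj.mp (congrArg Subtype.val h :)))
  have hsurj : ∀ b, ∃ a : Tp, f a.1 = b := fun b => by
    have h1 := Finset.card_le_mul_card_image (f := fun a : Tp => f a.1) Finset.univ p hfib
    rw [Finset.card_univ, hTp, sq] at h1
    have h2 : Finset.univ.image (fun a : Tp => f a.1) = Finset.univ := by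
      refine Finset.eq_univ_of_card _ (le_antisymm (Finset.card_le_univ _) ?_)
      rw [hopt]
      exact Nat.le_of_mul_le_mul_left h1 hpp.pos
    obtain ⟨a, -, ha⟩ := Finset.mem_image.mp (h2.ge (Finset.mem_univ b))
    exact ⟨a, ha⟩
  -- torsion of nonsingular reduction is divisible
  have hlift : ∀ (n : ℕ) (z : {z : Pts W // p ^ n • z = 0 ∧ z ∈ N.e0Sub}),
      ∃ y : {z : Pts W // p ^ (n + 1) • z = 0 ∧ z ∈ N.e0Sub}, p • y.1 = z.1 := by
    rintro n ⟨z, hz, hzE⟩
    obtain ⟨y, hy, hyz⟩ := exists_div W n hz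
    obtain ⟨a, ha⟩ := hsurj (f y)
    refine ⟨⟨y - a.1, ?_, hf y a.1 (by rw [hyz]; exact hzE) (hin a) ha.symm⟩, ?_⟩
    · rw [nsmul_sub, hy, pow_succ, mul_nsmul', a.2, nsmul_zero, sub_zero]
    · show p • (y - a.1) = z
      rw [nsmul_sub, hyz, a.2, sub_zero]
  obtain ⟨x, hx, hxE, hx0⟩ : ∃ x : Pts W, p • x = 0 ∧ x ∈ N.e0Sub ∧ x ≠ 0 := by
    obtain ⟨a, b, hab, he⟩ := Fintype.exists_ne_map_eq_of_card_lt (fun a : Tp => f a.1) (by
      rw [hTp, hopt, sq]
      exact lt_mul_of_one_lt_left hpp.pos hpp.one_lt)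
    exact ⟨a.1 - b.1, by rw [nsmul_sub, a.2, b.2, sub_zero], hf _ _ (hin a) (hin b) he,
      sub_ne_zero.mpr fun h => hab (Subtype.ext h)⟩
  choose g hg using hlift
  let T : ∀ k : ℕ, {z : Pts W // p ^ (k + 1) • z = 0 ∧ z ∈ N.e0Sub} :=
    fun k => Nat.rec ⟨x, by rw [pow_one]; exact hx, hxE⟩ (fun k z => g (k + 1) z) k
  let X : ℕ → Pts W := fun n => match n with | 0 => (0 : Pts W) | k + 1 => (T k).1
  have hXt : ∀ n, p ^ n • X n = 0 := fun n => by
    cases n with
    | zero => exact nsmul_zero _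
    | succ k => exact (T k).2.1
  have hXE : ∀ n, X n ∈ N.e0Sub := fun n => by
    cases n with
    | zero => exact zero_mem _
    | succ k => exact (T k).2.2
  have hXc : ∀ n, p • X (n + 1) = X n := fun n => by
    cases n with
    | zero => exact hx
    | succ k => exact hg (k + 1) (T k)
  obtain ⟨v₀, hv₀⟩ := B.exists_vec hXt hXc
  refine ⟨v₀, ?_, fun n => by rw [hv₀]; exact hXE n, ?_⟩
  · by_contra hne
    push Not at hne
    have hmem : ∀ i, PadicInt.toZModPow 1 (v₀ i) = 0 := fun i => by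
      rw [← RingHom.mem_ker, PadicInt.ker_toZModPow, pow_one, ← PadicInt.maximalIdeal_eq_span_p]
      exact hne i
    exact hx0 ((hv₀ 1).symm.trans ((B.ker 1 v₀).mpr hmem))
  -- the points of order dividing `p`
  have hline : ∀ y : Pts W, p • y = 0 → y ∈ N.e0Sub → ∃ c : ℕ, y = c • x := by
    intro y hy hyE
    let ψ : ZMod p → S := fun c => ⟨c.val • x, by rw [smul_comm, hx, nsmul_zero],
      N.e0Sub.nsmul_mem hxE _⟩
    have : NeZero p := ⟨hpp.ne_zero⟩
    have hψ : Function.Injective ψ := fun c d h => by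
      have h' : c.val • x = d.val • x := congrArg (fun t : S => t.1) h
      have hord : addOrderOf x = p := addOrderOf_eq_prime hx hx0
      rw [nsmul_eq_nsmul_iff_modEq, hord, ← ZMod.natCast_eq_natCast_iff, ZMod.natCast_zmod_val,
        ZMod.natCast_zmod_val] at h'
      exact h'
    have hb := (Nat.bijective_iff_injective_and_card ψ).mpr ⟨hψ,
      le_antisymm (Nat.card_le_card_of_injective ψ hψ)
        ((N.card_e0_torsion_le hp2).trans (Nat.card_zmod p).ge)⟩
    obtain ⟨c, hc⟩ := hb.2 ⟨y, hy, hyE⟩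
    exact ⟨c.val, (congrArg (fun t : S => t.1) hc).symm⟩
  have hcyc : ∀ n y, p ^ n • y = 0 → y ∈ N.e0Sub → ∃ k : ℕ, y = k • X n := by
    intro n
    induction n with
    | zero => exact fun y hy _ => ⟨0, by simpa using hy⟩
    | succ n ih =>
      intro y hy hyE
      obtain ⟨k, hk⟩ := ih (p • y) (by rw [← mul_nsmul', ← pow_succ, hy])
        (N.e0Sub.nsmul_mem hyE _)
      obtain ⟨c, hc⟩ := hline (y - k • X (n + 1))
        (by rw [nsmul_sub, smul_comm p k, hXc, hk, sub_self])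
        (sub_mem hyE (N.e0Sub.nsmul_mem (hXE (n + 1)) k))
      refine ⟨k + c * p ^ n, ?_⟩
      have hxn : p ^ n • X (n + 1) = x := by
        rw [← hv₀ (n + 1), add_comm n 1, B.pow_compat 1 n]
        exact hv₀ 1
      rw [add_nsmul, mul_nsmul', hxn, ← hc, add_sub_cancel]
  intro n w hw
  obtain ⟨k, hk⟩ := hcyc n _ (B.nsmul_phi n w) hw
  refine ⟨k, B.phi_eq_iff.mp ?_⟩
  rw [map_nsmul, hv₀, hk]

/-- **The triangular form at a place of multiplicative reduction.** -/
theorem TateBasis.exists_triangular (B : TateBasis p W) (hp2 : p ≠ 2) (hm : MultAt W q A) :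
    ∃ C : M2 ℤ_[p], IsUnit C.det ∧ ∀ σ ∈ A.decompositionSubgroup ℚ, ∃ x y z : ℤ_[p],
      B.rep σ * C = C * !![x, y; 0, z] ∧ (z = 1 ∨ z = -1) ∧
        (σ ∈ A.inertiaSubgroupIn ℚ → z = 1) := by
  obtain ⟨r, N⟩ := exists_nodeData hm
  obtain ⟨v₀, ⟨i, hi⟩, hvE, hline⟩ := N.exists_line_vec hp2 B
  obtain ⟨C, hC, hC0⟩ : ∃ C : M2 ℤ_[p], IsUnit C.det ∧ C *ᵥ Pi.single 0 1 = v₀ := by
    fin_cases i
    · refine ⟨!![v₀ 0, 0; v₀ 1, 1], by simpa [det_fin_two_of] using hi, ?_⟩
      funext j; fin_cases j <;> simp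
    · refine ⟨!![v₀ 0, 1; v₀ 1, 0], by simpa [det_fin_two_of] using hi, ?_⟩
      funext j; fin_cases j <;> simp
  refine ⟨C, hC, fun σ hσ => ?_⟩
  set M := B.rep σ
  set T := C⁻¹ * (M * C) with hT
  have hTC : M * C = C * T := by rw [hT, ← mul_assoc, Matrix.mul_nonsing_inv _ hC, one_mul]
  have hCe : C⁻¹ *ᵥ v₀ = Pi.single 0 1 := by
    rw [← hC0, mulVec_mulVec, Matrix.nonsing_inv_mul _ hC, one_mulVec]
  -- the second coordinate of a vector of nonsingular reduction vanishes
  have hcoord : ∀ n w, B.φ n w ∈ N.e0Sub → PadicInt.toZModPow n ((C⁻¹ *ᵥ w) 1) = 0 := by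
    intro n w hw
    obtain ⟨k, hk⟩ := hline n w hw
    rw [RingHom.map_mulVec]
    have e : (PadicInt.toZModPow n) ∘ w = (PadicInt.toZModPow n) ∘ (k • v₀) := funext hk
    rw [e, ← RingHom.map_mulVec, mulVec_smul, hCe]
    simp
  have hTj : ∀ j, C⁻¹ *ᵥ (M *ᵥ (C *ᵥ Pi.single j 1)) = T.col j := fun j => by
    rw [mulVec_mulVec, mulVec_mulVec, mul_assoc, ← hT, mulVec_single_one]
  have h10 : T 1 0 = 0 := PadicInt.ext_of_toZModPow.mp fun n => by
    have h := hcoord n (M *ᵥ v₀) (by rw [← B.rep_spec]; exact N.smul_mem_e0Sub hσ (hvE n))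
    rw [← hC0, hTj] at h
    rw [map_zero]
    exact h
  set w := C *ᵥ Pi.single 1 1 with hw
  have hsign : ∀ n, PadicInt.toZModPow n (T 1 1) = 1 ∨ PadicInt.toZModPow n (T 1 1) = -1 := by
    intro n
    have hC1 : (C⁻¹ *ᵥ w) 1 = 1 := by
      rw [hw, mulVec_mulVec, Matrix.nonsing_inv_mul _ hC, one_mulVec, Pi.single_eq_same]
    rcases N.smul_sign hσ ((hp.out.odd_of_ne_two hp2).pow (n := n)) (B.nsmul_phi n w) with h | h
    · left
      rw [B.rep_spec, ← map_sub] at h
      have h' := hcoord n _ h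
      rw [mulVec_sub, Pi.sub_apply, hC1, hw, hTj, map_sub, map_one, sub_eq_zero] at h'
      exact h'
    · right
      rw [B.rep_spec, ← map_add] at h
      have h' := hcoord n _ h
      rw [mulVec_add, Pi.add_apply, hC1, hw, hTj, map_add, map_one, add_eq_zero_iff_eq_neg] at h'
      exact h'
  refine ⟨T 0 0, T 0 1, T 1 1, ?_, ?_, fun hI => ?_⟩
  · rw [hTC]
    congr 1
    ext a b; fin_cases a <;> fin_cases b <;> simp [h10]
  · by_contra hc
    rw [not_or] at hc
    obtain ⟨n₁, hn₁⟩ : ∃ n, PadicInt.toZModPow n (T 1 1) ≠ 1 := by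
      by_contra h
      push Not at h
      exact hc.1 (PadicInt.ext_of_toZModPow.mp fun n => by rw [h n, map_one])
    obtain ⟨n₂, hn₂⟩ : ∃ n, PadicInt.toZModPow n (T 1 1) ≠ -1 := by
      by_contra h
      push Not at h
      exact hc.2 (PadicInt.ext_of_toZModPow.mp fun n => by rw [h n, map_neg, map_one])
    have hcast : ∀ (m : ℕ) (hm : m ≤ max n₁ n₂), PadicInt.toZModPow m (T 1 1) =
        ZMod.castHom (pow_dvd_pow p hm) (ZMod (p ^ m))
          (PadicInt.toZModPow (max n₁ n₂) (T 1 1)) := fun m hm => by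
      rw [ZMod.castHom_apply, PadicInt.cast_toZModPow _ _ hm]
    rcases hsign (max n₁ n₂) with h | h
    · exact hn₁ (by rw [hcast n₁ (le_max_left _ _), h, map_one])
    · exact hn₂ (by rw [hcast n₂ (le_max_right _ _), h, map_neg, map_one])
  · refine PadicInt.ext_of_toZModPow.mp fun n => ?_
    have h := N.smul_sub_mem_e0Sub hI (B.φ n w)
    rw [B.rep_spec, ← map_sub] at h
    have h' := hcoord n _ h
    have hC1 : (C⁻¹ *ᵥ w) 1 = 1 := by
      rw [hw, mulVec_mulVec, Matrix.nonsing_inv_mul _ hC, one_mulVec, Pi.single_eq_same]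
    rw [mulVec_sub, Pi.sub_apply, hC1, hw, hTj, map_sub, map_one, sub_eq_zero] at h'
    rw [map_one]
    exact h'

end FA.RT.Tate
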