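import Fermat.Agent.RT.Tate.Limit

/-!
# The `p`-adic representation at a prime of good reduction different from `p`
-/

set_option autoImplicit false
set_option linter.unusedSectionVars false

noncomputable section

open Matrix WeierstrassCurve FA.EC FA.Frob FA.Local
open scoped WeierstrassCurve.Affine Pointwise

namespace FA.RT.Tate

local notation "Qb" => AlgebraicClosure ℚ
local notation "GQ" => AlgebraicClosure ℚ ≃ₐ[ℚ] AlgebraicClosure ℚ
local notation "M2" => Matrix (Fin 2) (Fin 2)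

variable {p : ℕ} [hp : Fact p.Prime] {W : WeierstrassCurve ℤ} [(ratCurve W).IsElliptic]
  {q : ℕ} {A : ValuationSubring Qb}

theorem gal_smul_nsmul (σ : GQ) (n : ℕ) (x : Pts W) : σ • (n • x) = n • σ • x :=
  (smul_comm n σ x).symm

theorem gal_smul_zsmul (σ : GQ) (n : ℤ) (x : Pts W) : σ • (n • x) = n • σ • x :=
  (smul_comm n σ x).symm

theorem valuation_pow_p (hq : q.Prime) (hA : A.LiesOverPrime q) (hqp : q ≠ p) (n : ℕ) :
    A.valuation ((p ^ n : ℕ) : Qb) = 1 := by
  have h := valuation_intCast_of_liesOverPrime hq hA (n := (p : ℤ)) fun hd =>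
    hqp ((Nat.prime_dvd_prime_iff_eq hq hp.out).mp (Int.natCast_dvd_natCast.mp hd))
  rw [Int.cast_natCast] at h
  rw [Nat.cast_pow, map_pow, h, one_pow]

/-- The kernel of reduction has no `p`-power torsion away from `p`. -/
theorem eq_zero_of_e1_pow (hq : q.Prime) (hA : A.LiesOverPrime q) (hqp : q ≠ p)
    {P : Pts W} (hP : E1 A.valuation ((ratCurve W)⁄Qb).toAffine P) {n : ℕ}
    (hn : p ^ n • P = 0) : P = 0 := by
  induction n generalizing P with
  | zero => simpa using hn
  | succ n ih =>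
    have hk : ∀ k : ℕ, E1 A.valuation ((ratCurve W)⁄Qb).toAffine (k • P) := fun k => by
      induction k with
      | zero => rw [zero_nsmul]; exact e1_zero
      | succ k ihk => rw [succ_nsmul]; exact e1_add (intCoeff_ratCurve W A) ihk hP
    refine ih hP (Frob.eq_zero_of_e1_of_ne hq hA hqp.symm (hk _) ?_)
    rw [← mul_nsmul', ← pow_succ', hn]

/-- Inertia at a good prime fixes the `p`-power torsion. -/
theorem smul_eq_of_good (hq : q.Prime) (hA : A.LiesOverPrime q) (hqp : q ≠ p)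
    (hgood : W.IsGoodPrimeFor q) {σ : GQ} (hσ : σ ∈ A.inertiaSubgroupIn ℚ) {n : ℕ} {x : Pts W}
    (hx : p ^ n • x = 0) : σ • x = x :=
  sub_eq_zero.mp (eq_zero_of_e1_pow hq hA hqp
    ((inert_of_mem_inertiaSubgroupIn A hσ).e1_smul_sub_of_good (ratCurve W)
      (intCoeff_ratCurve W A) (valuation_Δ_ratCurve W hq hA hgood) x)
    (n := n) (by rw [nsmul_sub, ← gal_smul_nsmul, hx, sub_zero]; exact gal_smul_zero _ σ))

open scoped Classical in
/-- The relations satisfied by a Frobenius element on the `p`-power torsion. -/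
theorem frobenius_relations (hq : q.Prime) (hA : A.LiesOverPrime q) (hqp : q ≠ p)
    (hgood : W.IsGoodPrimeFor q) {σ : GQ} (hσ : A.IsFrobeniusAt σ q) :
    (∀ (n : ℕ) (x : Pts W), p ^ n • x = 0 →
        σ • σ • x - W.apOfModel q • σ • x + (q : ℤ) • x = 0) ∧
      ∀ (n : ℕ) (c : ℤ), ¬ (q : ℤ) ∣ c → (∀ x : Pts W, p ^ n • x = 0 → σ • x = c • x) →
        (p : ℤ) ^ (2 * n) ∣ c ^ 2 - W.apOfModel q * c + q := by
  have : Fact q.Prime := ⟨hq⟩
  have : CharP (Frob.Res A) q := residueField_charP A hq hA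
  have : IsAlgClosed (Frob.Res A) := residueField_isAlgClosed A
  set f : ZMod q →+* Frob.Res A := ZMod.castHom (dvd_refl q) (Frob.Res A)
  set hI := intCoeff_ratCurve W A
  set hΔ := valuation_Δ_ratCurve W hq hA hgood
  have hmap : redCurve A ((ratCurve W)⁄Qb).toAffine hI = (W.reductionMod q).map f := by
    rw [redCurve_ratCurve, reductionMod, WeierstrassCurve.map_map]
    congr 1
    exact RingHom.ext_int _ _
  have : (W.reductionMod q).IsElliptic := ⟨by
    rw [reductionMod, WeierstrassCurve.map_Δ]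
    refine (Ne.isUnit fun h => hgood ?_)
    exact (ZMod.intCast_zmod_eq_zero_iff_dvd _ q).mp h⟩
  have := redCurve_isElliptic hI hΔ
  set Wk := redCurve A ((ratCurve W)⁄Qb).toAffine hI with hWk
  have hW : Wk.map (frobenius (Frob.Res A) q) = Wk := by
    rw [hmap]; exact map_frobenius_map _ f
  have htr : trEnd Wk hW = W.apOfModel q := by
    rw [trEnd_congr hmap hW (map_frobenius_map _ f), trEnd_map (W.reductionMod q) f, apOfModel]
  have hstab : σ • A = A := hσ.mem_decompositionSubgroup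
  have hmem : ∀ x, σ x ∈ A ↔ x ∈ A := fun x => by
    conv_lhs => rw [← hstab]
    exact ValuationSubring.smul_mem_pointwise_smul_iff (g := σ) (S := A) (x := x)
  have hres : ∀ x, x ∈ A → resOf A (σ x) = resOf A x ^ q := by
    intro x hx
    have h := hσ.smul_residue_eq (IsLocalRing.residue A ⟨x, hx⟩)
    rw [← IsLocalRing.ResidueField.residue_smul] at h
    rw [resOf, resOf, dif_pos hx, dif_pos ((hmem x).mpr hx), ← h]
    rfl
  let ρ := redHom hI hΔ
  have key : ∀ P : Pts W, ρ (σ • P) = frobEnd Wk hW (ρ P) := by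
    intro P
    rcases P with _ | ⟨x, y, h⟩
    · rfl
    obtain ⟨h', he⟩ := smul_some (σ := σ) (ratCurve W) h
    rw [he]
    by_cases hx : x ∈ A
    · have hy := y_mem hI h.1 hx
      obtain ⟨k₁, e₁⟩ := redFun_of_mem hI h hx
      obtain ⟨k₂, e₂⟩ := redFun_of_mem hI h' ((hmem x).mpr hx)
      rw [redHom_apply, redHom_apply]
      rw [e₁, e₂, frobEnd, mapHom_some]
      simp only [Affine.Point.some.injEq, frobenius_def]
      exact ⟨hres x hx, hres y hy⟩
    · rw [redHom_apply, redHom_apply]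
      rw [redFun, redFun, dif_neg hx, dif_neg (fun h => hx ((hmem x).mp h)), map_zero]
  have hker : ∀ (n : ℕ) (P : Pts W), p ^ n • P = 0 → ρ P = 0 → P = 0 := fun n P hn h =>
    eq_zero_of_e1_pow hq hA hqp ((redFun_eq_zero_iff hI).mp h) hn
  refine ⟨fun n x hx => hker n _ ?_ ?_, fun n c hc hact => ?_⟩
  · have h0 : σ • (0 : Pts W) = 0 := gal_smul_zero _ σ
    rw [nsmul_add, nsmul_sub, smul_comm (p ^ n) (W.apOfModel q), smul_comm (p ^ n) (q : ℤ),
      ← gal_smul_nsmul, ← gal_smul_nsmul, hx, h0, h0, zsmul_zero, zsmul_zero, sub_zero, add_zero]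
  · rw [map_add, map_sub, map_zsmul, map_zsmul, key, key, ← htr]
    exact frobEnd_quadratic Wk hW (ρ x)
  · rw [← htr, ← natCard_ker_sub Wk hW hc, ← Nat.cast_pow, Int.natCast_dvd_natCast]
    let T := (Submodule.torsionBy ℤ ((ratCurve W)⁄Qb).Point ((p ^ n : ℕ) : ℤ)).toAddSubgroup
    let ρT : T →+ Wk.toAffine.Point := ρ.comp T.subtype
    have hinj : Function.Injective ρT := (injective_iff_map_eq_zero ρT).mpr fun P hP =>
      Subtype.ext (hker n P.1 ((mem_torsion_iff W).mp P.2) hP)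
    have hcard : Nat.card ρT.range = p ^ (2 * n) := by
      rw [← Nat.card_congr (AddMonoidHom.ofInjective hinj).toEquiv, mul_comm, pow_mul]
      exact natCard_torsion (ratCurve W) (pow_ne_zero _ hp.out.ne_zero)
    rw [← hcard]
    refine AddSubgroup.card_dvd_of_le ?_
    rintro _ ⟨P, rfl⟩
    simp only [AddMonoidHom.mem_ker, AddMonoidHom.sub_apply, AddMonoidHom.coe_smul, Pi.smul_apply,
      AddMonoidHom.id_apply]
    show c • ρ P.1 - frobEnd Wk hW (ρ P.1) = 0
    rw [← key, hact _ ((mem_torsion_iff W).mp P.2), map_zsmul, sub_self]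

namespace TateBasis

variable (B : TateBasis p W)

theorem rep_inertia_good (hq : q.Prime) (hA : A.LiesOverPrime q) (hqp : q ≠ p)
    (hgood : W.IsGoodPrimeFor q) {σ : GQ} (hσ : σ ∈ A.inertiaSubgroupIn ℚ) : B.rep σ = 1 :=
  B.rep_eq_one fun _ _ hx => smul_eq_of_good hq hA hqp hgood hσ hx

/-- The characteristic polynomial of Frobenius at a good prime. -/
theorem rep_frobenius (hq : q.Prime) (hA : A.LiesOverPrime q) (hqp : q ≠ p)
    (hgood : W.IsGoodPrimeFor q) {σ : GQ} (hσ : A.IsFrobeniusAt σ q) :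
    (B.rep σ).trace = (W.apOfModel q : ℤ_[p]) ∧ (B.rep σ).det = (q : ℤ_[p]) := by
  obtain ⟨hquad, hdvd⟩ := frobenius_relations hq hA hqp hgood hσ
  set a := W.apOfModel q
  set M := B.rep σ
  have h0 : M * M - (a : ℤ_[p]) • M + (q : ℤ_[p]) • 1 = 0 := by
    refine B.ext_phi fun n v => ?_
    rw [zero_mulVec, map_zero, add_mulVec, sub_mulVec, smul_mulVec, smul_mulVec, one_mulVec,
      ← mulVec_mulVec, Int.cast_smul_eq_zsmul, Nat.cast_smul_eq_nsmul, map_add, map_sub,
      map_zsmul, map_nsmul, ← B.rep_spec, ← B.rep_spec, ← natCast_zsmul]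
    exact hquad n _ (B.nsmul_phi n v)
  have hCH := LocalDef.mul_self_two M
  have hlin : (M.trace - (a : ℤ_[p])) • M = (M.det - (q : ℤ_[p])) • 1 := by
    rw [hCH] at h0
    rw [← sub_eq_zero, ← h0]
    module
  have e : ∀ i j, (M.trace - (a : ℤ_[p])) * M i j = (M.det - (q : ℤ_[p])) * (1 : M2 ℤ_[p]) i j :=
    fun i j => by simpa using congrFun (congrFun hlin i) j
  by_cases ht : M.trace = (a : ℤ_[p])
  · refine ⟨ht, sub_eq_zero.mp ?_⟩
    have := e 0 0
    rw [ht, sub_self, zero_mul, Matrix.one_apply_eq, mul_one] at this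
    exact this.symm
  have ht' := sub_ne_zero.mpr ht
  have h01 : M 0 1 = 0 := by simpa [ht'] using e 0 1
  have h10 : M 1 0 = 0 := by simpa [ht'] using e 1 0
  have h11 : M 1 1 = M 0 0 := by
    refine mul_left_cancel₀ ht' ((e 1 1).trans ?_)
    simpa using (e 0 0).symm
  set c := M 0 0 with hc
  have hM : M = c • 1 := by
    ext i j
    fin_cases i <;> fin_cases j <;> simp [h01, h10, h11, hc]
  have hroot : c ^ 2 - (a : ℤ_[p]) * c + (q : ℤ_[p]) = 0 := by
    have := congrFun (congrFun h0 0) 0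
    simp [hM] at this
    linear_combination this
  suffices h2 : (a : ℤ_[p]) = 2 * c by
    exfalso
    refine ht ?_
    rw [Matrix.trace_fin_two, h11, ← hc, h2, two_mul]
  refine (sub_eq_zero.mp ((mul_eq_zero.mp (PadicInt.ext_of_toZModPow.mp fun n => ?_ :
    (q : ℤ_[p]) * (2 * c - a) = 0)).resolve_left (Nat.cast_ne_zero.mpr hq.ne_zero))).symm
  have : NeZero (p ^ n) := ⟨pow_ne_zero _ hp.out.ne_zero⟩
  have hqn : ¬ (q : ℤ) ∣ ((p ^ n : ℕ) : ℤ) := fun h =>
    hqp ((Nat.prime_dvd_prime_iff_eq hq hp.out).mp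
      (hq.dvd_of_dvd_pow (Int.natCast_dvd_natCast.mp h)))
  obtain ⟨c₀, hc₀, hc₀q⟩ : ∃ c₀ : ℤ, (c₀ : ZMod (p ^ n)) = PadicInt.toZModPow n c ∧
      ¬ (q : ℤ) ∣ c₀ := by
    by_cases h : (q : ℤ) ∣ (PadicInt.toZModPow n c).val
    · exact ⟨(PadicInt.toZModPow n c).val + (p ^ n : ℕ), by
        rw [Int.cast_add, Int.cast_natCast, Int.cast_natCast, ZMod.natCast_self, add_zero,
          ZMod.natCast_zmod_val],
        fun h' => hqn ((Int.dvd_add_right h).mp h')⟩
    · exact ⟨(PadicInt.toZModPow n c).val, by simp, h⟩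
  have hact : ∀ m : ℤ, (m : ZMod (p ^ n)) = PadicInt.toZModPow n c →
      ∀ x : Pts W, p ^ n • x = 0 → σ • x = m • x := fun m hm x hx => by
    obtain ⟨v, rfl⟩ := B.surj n x hx
    rw [B.rep_spec, ← map_zsmul, B.phi_eq_iff]
    intro i
    rw [show B.rep σ = c • 1 from hM, smul_mulVec, one_mulVec, Pi.smul_apply, Pi.smul_apply,
      smul_eq_mul, zsmul_eq_mul, map_mul, map_mul, map_intCast, hm]
  obtain ⟨u, hu⟩ := hdvd n c₀ hc₀q (hact c₀ hc₀)
  obtain ⟨w, hw⟩ := hdvd n (c₀ + q * (p ^ n : ℕ))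
    (fun h => hc₀q ((Int.dvd_add_left (dvd_mul_right _ _)).mp h))
    (hact _ (by rw [Int.cast_add, Int.cast_mul, Int.cast_natCast, Int.cast_natCast,
      ZMod.natCast_self, mul_zero, add_zero, hc₀]))
  have hd : (q : ℤ) * (2 * c₀ - a) = (p : ℤ) ^ n * (w - u - q * q) := by
    refine mul_left_cancel₀ (pow_ne_zero n (Int.natCast_ne_zero.mpr hp.out.ne_zero)) ?_
    push_cast at hw
    rw [show 2 * n = n + n by ring, pow_add] at hu hw
    linear_combination hw - hu
  have h3 := congrArg (Int.cast : ℤ → ZMod (p ^ n)) hd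
  push_cast [hc₀] at h3
  rw [← Nat.cast_pow, ZMod.natCast_self, zero_mul] at h3
  rw [map_zero, map_mul, map_natCast, map_sub, map_mul, map_ofNat, map_intCast]
  exact h3

end TateBasis

end FA.RT.Tate
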