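import Fermat.Agent.RT.Tate.Good
import Fermat.Agent.LocalDef.MultStrict

/-!
# The points of nonsingular reduction in the `p`-power torsion at a multiplicative place

Modulo the points of nonsingular reduction there are at most `p` classes of points killed by `p`,
and at most `p` points of order dividing `p` are of nonsingular reduction. Hence the torsion of
nonsingular reduction of order `p ^ n` is cyclic of order `p ^ n`. A decomposition element acts on
the classes by a sign, inertia trivially. The residue characteristic is arbitrary.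
-/

set_option autoImplicit false
set_option linter.unusedSectionVars false

noncomputable section

open WeierstrassCurve FA.Local FA.Frob FA.EC FA.LocalDef
open scoped Pointwise WeierstrassCurve.Affine

namespace FA.RT.Tate

local notation "Qb" => AlgebraicClosure ℚ
local notation "GQ" => AlgebraicClosure ℚ ≃ₐ[ℚ] AlgebraicClosure ℚ

section General

variable {L Γ : Type*} [Field L] [LinearOrderedCommGroupWithZero Γ] {v : Valuation L Γ}
  {V : Affine L} [DecidableEq L]

/-- A point with a multiple of nonsingular reduction lies there or on one of the branches. -/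
theorem e0_or_br_of_nsmul (hN : Node v V) {p : ℕ} (hp : Odd p) {P : V.Point}
    (hpP : E0 v V (p • P)) : E0 v V P ∨ ∃ g s, Br v V P g s := by
  rcases P with _ | ⟨x, y, h⟩
  · left; trivial
  by_cases h1 : 1 ≤ v x
  · left; exact h1
  by_cases h2 : v x ≤ v V.a₄
  · exfalso
    have h3 := hN.e0_sub (hN.e0_nsmul (hN.e0_add_T_of_le h h2) p) hpP
    rw [nsmul_add, add_sub_cancel_left] at h3
    obtain ⟨k, rfl⟩ := hp
    rw [add_nsmul, mul_comm, mul_nsmul', hN.two_nsmul_T, nsmul_zero, zero_add, one_nsmul] at h3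
    exact hN.T_not_e0 h3
  · exact Or.inr ⟨_, _, hN.br_self h (not_le.mp h2) (not_le.mp h1)⟩

/-- The value of the abscissa of a point outside of nonsingular reduction killed by `p` modulo
nonsingular reduction. -/
theorem pow_eq_of_nsmul_e0 (hN : Node v V) {p : ℕ} (hp : p.Prime) {P : V.Point} {g : Γ} {s : L}
    (hP : Br v V P g s) (hpP : E0 v V (p • P)) : ∃ i : ℕ, g ^ p = v V.a₄ ^ (2 * i) := by
  have hg : 0 < g := lt_of_le_of_lt zero_le (by
    obtain ⟨x, y, h, rfl⟩ := hP.exists_eq; exact hP.2.1)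
  have hPT := hN.br_add_T hP
  have main : ∀ k : ℕ, 1 ≤ k → k ≤ p → ∃ j : ℕ,
      (∃ h, Br v V (k • P + j • hN.T) h s ∧ h * v V.a₄ ^ j = g ^ k) ∨
      (E0 v V (k • P + j • hN.T) ∧ g ^ k = v V.a₄ ^ j) := by
    intro k hk
    induction k, hk using Nat.le_induction with
    | base =>
      exact fun _ => ⟨0, Or.inl ⟨g, by rwa [one_nsmul, zero_nsmul, add_zero], by simp⟩⟩
    | succ k hk ih =>
      intro hkp
      obtain ⟨j, ⟨h, hbr, hpow⟩ | ⟨hE, -⟩⟩ := ih (by omega)
      · rcases lt_trichotomy (v V.a₄) (h * g) with hlt | heq | hgt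
        · refine ⟨j, Or.inl ⟨h * g, ?_, by rw [pow_succ, ← hpow, mul_right_comm]⟩⟩
          rw [succ_nsmul, show k • P + P + j • hN.T = (k • P + j • hN.T) + P by abel]
          exact hN.br_add_same hbr hP hlt
        · refine ⟨j + 1, Or.inr ⟨?_, ?_⟩⟩
          swap
          · rw [pow_succ, ← hpow, pow_succ, mul_right_comm, ← heq, mul_comm]
          rw [succ_nsmul, succ_nsmul,
            show k • P + P + (j • hN.T + hN.T) = (k • P + j • hN.T) + (P + hN.T) by abel]
          exact (hN.add_opp hbr hPT).1 (by rw [eq_div_iff hg.ne', ← heq])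
        · have hlt : h < v V.a₄ / g := by rwa [lt_div_iff₀ hg]
          refine ⟨j + 1, Or.inl ⟨h / (v V.a₄ / g), ?_, ?_⟩⟩
          · rw [succ_nsmul, succ_nsmul,
              show k • P + P + (j • hN.T + hN.T) = (k • P + j • hN.T) + (P + hN.T) by abel]
            exact (hN.add_opp hbr hPT).2 hlt
          · rw [pow_succ, pow_succ, ← hpow]
            have hb : v V.a₄ ≠ 0 := v.ne_zero_iff.mpr hN.hb₀
            field_simp
      · exfalso
        have := Fact.mk hp
        have hk0 : (k : ZMod p) ≠ 0 := by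
          rw [Ne, ZMod.natCast_eq_zero_iff]
          exact Nat.not_dvd_of_pos_of_lt (by omega) (by omega)
        set m := (k : ZMod p)⁻¹.val with hm
        have hmk : ((k * m : ℕ) : ZMod p) = (1 : ℕ) := by
          rw [Nat.cast_mul, hm, ZMod.natCast_zmod_val, mul_inv_cancel₀ hk0, Nat.cast_one]
        have hmP : (k * m) • P = P + (k * m / p) • (p • P) := by
          have hmod : (k * m) % p = 1 := by
            rw [(ZMod.natCast_eq_natCast_iff' _ _ _).mp hmk, Nat.mod_eq_of_lt hp.one_lt]
          conv_lhs => rw [← Nat.mod_add_div (k * m) p, hmod, add_nsmul, one_nsmul, mul_nsmul]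
        have h4 := hN.e0_nsmul hE m
        rw [nsmul_add, ← mul_nsmul, ← mul_nsmul, hmP] at h4
        have h5 := hN.e0_sub h4 (hN.e0_nsmul hpP (k * m / p))
        rw [show P + (k * m / p) • p • P + (j * m) • hN.T - (k * m / p) • p • P =
          P + (j * m) • hN.T by abel] at h5
        rcases hN.nsmul_T (j * m) with hT | hT <;> rw [hT] at h5
        · exact hP.not_e0 (by simpa using h5)
        · exact hPT.not_e0 h5
  obtain ⟨j, ⟨h, hbr, -⟩ | ⟨hE, hpow⟩⟩ := main p hp.one_lt.le le_rfl
  · rcases hN.nsmul_T j with hT | hT <;> rw [hT] at hbr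
    · rw [add_zero] at hbr
      exact absurd hpP hbr.not_e0
    · have := hN.br_add_T hbr
      rw [add_assoc, hN.T_add_T, add_zero] at this
      exact absurd hpP this.not_e0
  · have h3 := hN.e0_sub hE hpP
    rw [add_sub_cancel_left] at h3
    obtain ⟨i, rfl | rfl⟩ := j.even_or_odd'
    · exact ⟨i, hpow⟩
    · rw [add_nsmul, mul_comm, mul_nsmul', hN.two_nsmul_T, nsmul_zero, zero_add, one_nsmul] at h3
      exact absurd h3 hN.T_not_e0

/-- At most `p` classes of points killed by `p` modulo nonsingular reduction. -/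
theorem exists_class (hN : Node v V) {p : ℕ} (hp : p.Prime) (hodd : Odd p) {s₀ : L}
    (hs₀ : v (qb V s₀) < 1) :
    ∃ f : V.Point → Option (Fin ((p - 1) / 2) × Bool),
      ∀ P Q, E0 v V (p • P) → E0 v V (p • Q) → f P = f Q → E0 v V (P - Q) := by
  classical
  have key : ∀ P : V.Point, ∃ c : Option (Fin ((p - 1) / 2) × Bool), E0 v V (p • P) →
      (c = none ∧ E0 v V P) ∨ ∃ (i : Fin ((p - 1) / 2)) (b : Bool) (g : Γ) (s : L),
        c = some (i, b) ∧ Br v V P g s ∧ g ^ p = v V.a₄ ^ (2 * (i.1 + 1)) ∧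
          (b = true ↔ v (s - s₀) < 1) := by
    intro P
    by_cases hP : E0 v V (p • P)
    swap
    · exact ⟨none, fun h => absurd h hP⟩
    rcases e0_or_br_of_nsmul hN hodd hP with h | ⟨g, s, hbr⟩
    · exact ⟨none, fun _ => Or.inl ⟨rfl, h⟩⟩
    obtain ⟨i, hi⟩ := pow_eq_of_nsmul_e0 hN hp hbr hP
    have hlow : v V.a₄ < g ∧ g < 1 := by
      obtain ⟨a, b, hab, e⟩ := hbr.exists_eq
      have := hbr; rw [e, br_some] at this; exact ⟨this.2.1, this.2.2.1⟩
    have hi1 : 1 ≤ i := by
      by_contra h0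
      rw [not_le, Nat.lt_one_iff] at h0
      rw [h0, mul_zero, pow_zero] at hi
      exact (pow_lt_one₀ zero_le hlow.2 hp.ne_zero).ne hi
    have hi2 : 2 * i < p := by
      by_contra hge
      have h1 := pow_lt_pow_left₀ hlow.1 zero_le hp.ne_zero
      rw [hi] at h1
      exact absurd h1 (not_lt.mpr (pow_le_pow_right_of_le_one' hN.hb.le (by omega)))
    obtain ⟨k, hk⟩ := hodd
    refine ⟨some (⟨i - 1, by omega⟩, decide (v (s - s₀) < 1)), fun _ => Or.inr
      ⟨_, _, g, s, rfl, hbr, ?_, decide_eq_true_iff⟩⟩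
    rw [hi]
    congr 2
    simp only
    omega
  choose f hf using key
  refine ⟨f, fun P Q hP hQ h => ?_⟩
  rcases hf P hP with ⟨hc, hP0⟩ | ⟨i, b, g, s, hc, hbP, hg, hb⟩ <;>
    rcases hf Q hQ with ⟨hc', hQ0⟩ | ⟨i', b', g', s', hc', hbQ, hg', hb'⟩ <;> rw [hc, hc'] at h
  · exact hN.e0_sub hP0 hQ0
  · simp at h
  · simp at h
  simp only [Option.some.injEq, Prod.mk.injEq] at h
  obtain ⟨rfl, rfl⟩ := h
  have hgg : g' = g := (pow_left_inj₀ zero_le zero_le hp.ne_zero).mp (hg'.trans hg.symm)
  subst hgg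
  have hs : v (qb V s) < 1 := by
    obtain ⟨a, c, hac, e⟩ := hbP.exists_eq
    have := hbP; rw [e, br_some] at this; exact this.2.2.2.2
  have hs' : v (qb V s') < 1 := by
    obtain ⟨a, c, hac, e⟩ := hbQ.exists_eq
    have := hbQ; rw [e, br_some] at this; exact this.2.2.2.2
  have hss : v (s - s') < 1 := by
    by_cases hv : v (s - s₀) < 1
    · have := hb'.mp (hb.mpr hv)
      rw [show s - s' = (s - s₀) - (s' - s₀) by ring]; exact v.map_sub_lt hv this
    · have hv' : ¬ v (s' - s₀) < 1 := fun h' => hv (hb.mp (hb'.mpr h'))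
      have a := (Node.root_cases hs₀ hs).resolve_left hv
      have c := (Node.root_cases hs₀ hs').resolve_left hv'
      rw [show s - s' = (s - (-V.a₁ - s₀)) - (s' - (-V.a₁ - s₀)) by ring]
      exact v.map_sub_lt a c
  exact hN.sub_e0_of_br hbP (Node.br_congr hbQ hs (by rwa [v.map_sub_swap]))

end General

/-- A place of multiplicative reduction with its node. -/
structure NodeData (W : WeierstrassCurve ℤ) (q : ℕ) (A : ValuationSubring Qb) (r : Qb) : Prop where
  mult : MultAt W q A
  root : psi2 ((ratCurve W)⁄Qb) r = 0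
  int : A.valuation r ≤ 1
  node : Node A.valuation (toOrigin ((ratCurve W)⁄Qb) r).toAffine

theorem exists_nodeData {W : WeierstrassCurve ℤ} {q : ℕ} {A : ValuationSubring Qb}
    (h : MultAt W q A) : ∃ r, NodeData W q A r :=
  let ⟨r, hr, hr1, hN⟩ := h.exists_node
  ⟨r, h, hr, hr1, hN⟩

namespace NodeData

variable {W : WeierstrassCurve ℤ} [(ratCurve W).IsElliptic] {q : ℕ} {A : ValuationSubring Qb}
  {r : Qb} (N : NodeData W q A r)

local notation "EQ" => ((ratCurve W)⁄Qb)
local notation "E'" => (toOrigin ((ratCurve W)⁄Qb) r)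

include N

lemma exists_branch : ∃ s : Qb, A.valuation (qb (E').toAffine s) < 1 := by
  obtain ⟨t, ht⟩ := IsAlgClosed.exists_root (Polynomial.C 1 * Polynomial.X ^ 2
    + Polynomial.C (E').a₁ * Polynomial.X + Polynomial.C (-(E').a₂)) (by
      rw [Polynomial.degree_quadratic one_ne_zero]; exact two_ne_zero)
  simp only [Polynomial.IsRoot.def, Polynomial.eval_add, Polynomial.eval_mul, Polynomial.eval_C,
    Polynomial.eval_pow, Polynomial.eval_X, one_mul] at ht
  refine ⟨t, ?_⟩
  rw [show qb (E').toAffine t = 0 by simp only [qb]; linear_combination ht, map_zero]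
  exact zero_lt_one

/-- The points of nonsingular reduction. -/
def e0Sub : AddSubgroup (Pts W) where
  carrier := {P | E0 A.valuation (E').toAffine ((originEquiv EQ r).symm P)}
  zero_mem' := by simp
  add_mem' {P Q} hP hQ := by
    show E0 A.valuation (E').toAffine ((originEquiv EQ r).symm (P + Q))
    rw [map_add]
    exact N.node.e0_add hP hQ
  neg_mem' {P} hP := by
    show E0 A.valuation (E').toAffine ((originEquiv EQ r).symm (-P))
    rw [map_neg]
    exact e0_neg.mpr hP

lemma mem_e0Sub {P : (E').toAffine.Point} :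
    originEquiv EQ r P ∈ N.e0Sub ↔ E0 A.valuation (E').toAffine P := by
  show E0 A.valuation (E').toAffine ((originEquiv EQ r).symm (originEquiv EQ r P)) ↔ _
  rw [AddEquiv.symm_apply_apply]

/-- The classes of the points killed by `p` modulo nonsingular reduction. -/
theorem exists_class_fun {p : ℕ} (hp : p.Prime) (hp2 : p ≠ 2) :
    ∃ f : Pts W → Option (Fin ((p - 1) / 2) × Bool),
      ∀ P Q : Pts W, p • P ∈ N.e0Sub → p • Q ∈ N.e0Sub → f P = f Q → P - Q ∈ N.e0Sub := by
  obtain ⟨s₀, hs₀⟩ := N.exists_branch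
  obtain ⟨f, hf⟩ := exists_class N.node hp (hp.odd_of_ne_two hp2) hs₀
  refine ⟨fun P => f ((originEquiv EQ r).symm P), fun P Q hP hQ h => ?_⟩
  show E0 A.valuation (E').toAffine ((originEquiv EQ r).symm (P - Q))
  rw [map_sub]
  refine hf _ _ ?_ ?_ h
  · rw [← map_nsmul]; exact hP
  · rw [← map_nsmul]; exact hQ

/-- A decomposition element moves the node only a little. -/
theorem delta_le {σ : GQ} (hσ : σ ∈ A.decompositionSubgroup ℚ) :
    A.valuation (σ r - r) ≤ A.valuation (E').a₄ := by
  have h2 : (2 : Qb) ≠ 0 := two_ne_zero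
  set δ := σ r - r
  set a₄ := (E').a₄
  set B := discB EQ r
  have hroot : δ * (4 * δ ^ 2 + B * δ + 4 * a₄) = 0 := by
    have h := psi2_add h2 EQ r δ
    rwa [add_sub_cancel, ← psi2_map, N.root, map_zero, zero_add, eq_comm] at h
  have hδle : A.valuation δ ≤ 1 :=
    A.valuation.map_sub_le (decomp_map_le hσ N.int) N.int
  -- the derivative is equivariant
  have hderiv : A.valuation (12 * δ ^ 2 + 2 * B * δ + 4 * a₄) = A.valuation (4 * a₄) := by
    have e : ∀ x : Qb, 4 * (toOrigin EQ x).a₄ = 12 * x ^ 2 + 2 * (EQ).b₂ * x + 2 * (EQ).b₄ := fun x => by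
      rw [toOrigin_a₄, halfY, WeierstrassCurve.b₂, WeierstrassCurve.b₄]
      field_simp
      ring
    have e' : σ (4 * a₄) = 12 * δ ^ 2 + 2 * B * δ + 4 * a₄ := by
      have hb2 : σ (EQ).b₂ = (EQ).b₂ := by
        simp only [WeierstrassCurve.baseChange, WeierstrassCurve.map_b₂, AlgEquiv.commutes]
      have hb4 : σ (EQ).b₄ = (EQ).b₄ := by
        simp only [WeierstrassCurve.baseChange, WeierstrassCurve.map_b₄, AlgEquiv.commutes]
      rw [show (4 * a₄) = _ from e r]
      simp only [B, discB, δ, map_add, map_mul, map_ofNat, map_pow, hb2, hb4]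
      ring
    rw [← e', decomp_map_eq hσ]
  have hδ1 : A.valuation δ < 1 := by
    refine lt_of_le_of_ne hδle fun h1 => ?_
    have hδ0 : δ ≠ 0 := fun h => by simp [h] at h1
    have hq : 4 * δ ^ 2 + B * δ + 4 * a₄ = 0 := (mul_eq_zero.mp hroot).resolve_left hδ0
    have h4 : A.valuation (4 * a₄) < 1 := map_mul_lt_one le_four N.node.hb
    have hlt : A.valuation (12 * δ ^ 2 + 2 * B * δ + 4 * a₄ - 3 * (4 * δ ^ 2 + B * δ + 4 * a₄)) < 1 :=
      A.valuation.map_sub_lt (by rw [hderiv]; exact h4) (by rw [hq, mul_zero, map_zero]; exact zero_lt_one)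
    rw [show 12 * δ ^ 2 + 2 * B * δ + 4 * a₄ - 3 * (4 * δ ^ 2 + B * δ + 4 * a₄) =
      -(B * δ + 2 * (4 * a₄)) by ring, A.valuation.map_neg] at hlt
    have := A.valuation.map_sub_lt hlt (map_mul_lt_one le_two h4)
    rw [add_sub_cancel_right, map_mul, h1, mul_one,
      show A.valuation B = 1 by rw [show B = _ from (toOrigin_disc).symm]; exact N.node.hdisc] at this
    exact lt_irrefl _ this
  exact (small_root_le (ratCurve W) N.node hroot hδ1).trans (mul_le_of_le_one_left' le_four)

/-- A decomposition element on the coordinates of the normal form. -/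
theorem smul_origin {σ : GQ} {x y : Qb} (h : (E').toAffine.Nonsingular x y) :
    ∃ (y' : Qb) (h' : (E').toAffine.Nonsingular (σ x + (σ r - r)) y'),
      σ • originEquiv EQ r (.some x y h) = originEquiv EQ r (.some _ _ h') := by
  obtain ⟨h₁, e₁⟩ := originEquiv_some h
  obtain ⟨h₂, e₂⟩ := smul_some (σ := σ) (ratCurve W) h₁
  rcases hP : (originEquiv EQ r).symm (σ • originEquiv EQ r (.some x y h)) with _ | ⟨x', y', h'⟩
  · exfalso
    have h0 := congrArg (originEquiv EQ r) hP
    rw [AddEquiv.apply_symm_apply, ← Affine.Point.zero_def, map_zero, e₁, e₂] at h0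
    exact Affine.Point.some_ne_zero _ h0
  have h0 := congrArg (originEquiv EQ r) hP
  rw [AddEquiv.apply_symm_apply] at h0
  obtain ⟨h₃, e₃⟩ := originEquiv_some h'
  have hx : x' = σ x + (σ r - r) := by
    have h1 := h0
    rw [e₁, e₂, e₃, Affine.Point.some.injEq] at h1
    linear_combination -h1.1 + map_add σ x r
  subst hx
  exact ⟨y', h', h0⟩

theorem smul_mem_e0Sub {σ : GQ} (hσ : σ ∈ A.decompositionSubgroup ℚ) {P : Pts W}
    (hP : P ∈ N.e0Sub) : σ • P ∈ N.e0Sub := by
  obtain ⟨P, rfl⟩ := (originEquiv EQ r).surjective P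
  rw [N.mem_e0Sub] at hP
  rcases P with _ | ⟨x, y, h⟩
  · rw [← Affine.Point.zero_def, map_zero, gal_smul_zero]; exact zero_mem _
  obtain ⟨y', h', e⟩ := N.smul_origin (σ := σ) h
  rw [e, N.mem_e0Sub, e0_some]
  rw [e0_some] at hP
  have hlt : A.valuation (σ r - r) < A.valuation (σ x) :=
    lt_of_lt_of_le ((N.delta_le hσ).trans_lt N.node.hb) (by rw [decomp_map_eq hσ]; exact hP)
  rw [A.valuation.map_add_eq_of_lt_left hlt, decomp_map_eq hσ]
  exact hP

/-- A decomposition element fixes or negates a point killed by an odd number modulo nonsingular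
reduction. -/
theorem smul_sign {σ : GQ} (hσ : σ ∈ A.decompositionSubgroup ℚ) {m : ℕ} (hm : Odd m) {P : Pts W}
    (hP : m • P = 0) : σ • P - P ∈ N.e0Sub ∨ σ • P + P ∈ N.e0Sub := by
  obtain ⟨P, rfl⟩ := (originEquiv EQ r).surjective P
  have hP' : m • P = 0 := (originEquiv EQ r).injective (by rw [map_nsmul, hP, map_zero])
  rcases N.node.e0_or_br hm hP' with h0 | ⟨g, s, hbr⟩
  · exact Or.inl (sub_mem (N.smul_mem_e0Sub hσ (N.mem_e0Sub.mpr h0)) (N.mem_e0Sub.mpr h0))
  obtain ⟨x, y, h, rfl⟩ := hbr.exists_eq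
  obtain ⟨y', h', e⟩ := N.smul_origin (σ := σ) h
  have hbr' := hbr
  rw [br_some] at hbr'
  obtain ⟨hg, hlow, hhigh, -, hs⟩ := hbr'
  have hx' : A.valuation (σ x + (σ r - r)) = g := by
    rw [A.valuation.map_add_eq_of_lt_left (by
      rw [decomp_map_eq hσ, hg]; exact (N.delta_le hσ).trans_lt hlow), decomp_map_eq hσ, hg]
  have hbrs := N.node.br_self h' (hx' ▸ hlow) (hx' ▸ hhigh)
  rw [hx'] at hbrs
  have hs' : A.valuation (qb (E').toAffine (y' / (σ x + (σ r - r)))) < 1 := by
    rw [br_some] at hbrs; exact hbrs.2.2.2.2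
  rw [e, ← map_sub, ← map_add, N.mem_e0Sub, N.mem_e0Sub]
  rcases Node.root_cases hs hs' with h1 | h1
  · exact Or.inl (N.node.sub_e0_of_br (Node.br_congr hbrs hs h1) hbr)
  · exact Or.inr ((N.node.add_opp hbr (Node.br_congr hbrs (by rwa [Node.qb_other]) h1)).1 rfl |>
      fun h2 => by rwa [add_comm] at h2)

/-- Inertia moves every point into nonsingular reduction. -/
theorem smul_sub_mem_e0Sub {σ : GQ} (hσ : σ ∈ A.inertiaSubgroupIn ℚ) (P : Pts W) :
    σ • P - P ∈ N.e0Sub := by
  have h := nsE0_smul_sub (ratCurve W) N.root N.int N.node two_ne_zero (intCoeff_ratCurve W A)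
    (inert_of_mem_inertiaSubgroupIn A hσ) P
  obtain ⟨Q, hQ⟩ := (originEquiv EQ r).surjective (σ • P - P)
  rw [← hQ, N.mem_e0Sub]
  rwa [← hQ, nsE0_origin_iff two_ne_zero N.int N.node] at h

/-- The points of order dividing `p` and nonsingular reduction are at most `p`. -/
theorem card_e0_torsion_le {p : ℕ} [hp : Fact p.Prime] (hp2 : p ≠ 2) :
    Nat.card {x : Pts W // p • x = 0 ∧ x ∈ N.e0Sub} ≤ p := by
  classical
  by_cases hqp : q = p
  · subst hqp
    let NA : NodeAt W q A r := ⟨N.mult, hp2, N.root, N.int, N.node⟩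
    have h := Module.natCard_eq_pow_finrank (K := ZMod q) (V := e1Torsion W A q)
    rw [finrank_e1Torsion N.mult hp2, pow_one, Nat.card_zmod] at h
    have : Finite (e1Torsion W A q) := Nat.finite_of_card_ne_zero (by rw [h]; exact hp.out.ne_zero)
    refine le_trans (Nat.card_le_card_of_injective (fun x => (⟨⟨x.1, (mem_torsion_iff W).mpr x.2.1⟩,
      NA.e1_of_torsion (show x.1 ∈ NA.e0Group from x.2.2) x.2.1⟩ : e1Torsion W A q)) fun a b h' =>
      Subtype.ext (congrArg (fun z : e1Torsion W A q => z.1.1) h')) h.le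
  obtain ⟨s, hs⟩ := N.exists_branch
  let e := originEquiv EQ r
  let c : Pts W → Qb := fun x => nodeChar A.valuation (E').toAffine s (e.symm x)
  have hc : ∀ x : Pts W, x ∈ N.e0Sub → A.valuation (c x) = 1 := fun x hx =>
    nodeChar_unit N.node hs hx
  have hroot : ∀ x : {x : Pts W // p • x = 0 ∧ x ∈ N.e0Sub},
      LocalDef.res A (c x.1) ∈ (Polynomial.nthRoots p (1 : LocalDef.Res A)).toFinset := fun x => by
    rw [Multiset.mem_toFinset, Polynomial.mem_nthRoots hp.out.pos,
      ← res_pow (hc _ x.2.2).le, res_congr (y := (1 : Qb)) (map_one _).le ?_, res_one]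
    have h := nodeChar_nsmul N.node hs (show E0 A.valuation (E').toAffine (e.symm x.1) from x.2.2) p
    rw [← map_nsmul, x.2.1, map_zero, nodeChar_e1 e1_zero, A.valuation.map_sub_swap] at h
    exact h
  have hinj : Function.Injective fun x : {x : Pts W // p • x = 0 ∧ x ∈ N.e0Sub} =>
      (⟨LocalDef.res A (c x.1), hroot x⟩ :
        (Polynomial.nthRoots p (1 : LocalDef.Res A)).toFinset) := fun a b hab => by
    refine Subtype.ext (sub_eq_zero.mp (Frob.eq_zero_of_e1_of_ne N.mult.prime N.mult.lies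
      (Ne.symm hqp) ?_ (by rw [nsmul_sub, a.2.1, b.2.1, sub_zero])))
    have hd : (a.1 - b.1) ∈ N.e0Sub := sub_mem a.2.2 b.2.2
    obtain ⟨D, hD⟩ := e.surjective (a.1 - b.1)
    rw [← hD, e1_origin N.int]
    rw [← hD, N.mem_e0Sub] at hd
    refine e1_of_nodeChar N.node hs hd ?_
    have hm := nodeChar_add N.node hs hd (show E0 A.valuation (E').toAffine (e.symm b.1) from b.2.2)
    rw [show D + e.symm b.1 = e.symm a.1 by
      rw [← e.symm_apply_apply D, hD, ← map_add, sub_add_cancel]] at hm
    have hab' : LocalDef.res A (c a.1) = LocalDef.res A (c b.1) := congrArg Subtype.val hab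
    have hlt : A.valuation (c a.1 - c b.1) < 1 := by
      have hle : A.valuation (c a.1 - c b.1) ≤ 1 :=
        A.valuation.map_sub_le (hc _ a.2.2).le (hc _ b.2.2).le
      rw [← res_eq_zero_iff hle]
      have h2 := res_add (A := A) hle (hc _ b.2.2).le
      rw [sub_add_cancel, hab', right_eq_add] at h2
      exact h2
    have h3 := A.valuation.map_sub_lt hlt hm
    rw [show c a.1 - c b.1 -
        (nodeChar A.valuation (E').toAffine s (e.symm a.1) -
          nodeChar A.valuation (E').toAffine s D * nodeChar A.valuation (E').toAffine s (e.symm b.1)) =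
        (nodeChar A.valuation (E').toAffine s D - 1) * c b.1 by simp only [c]; ring, map_mul,
      hc _ b.2.2, mul_one] at h3
    exact h3
  refine (Nat.card_le_card_of_injective _ hinj).trans ?_
  rw [Nat.card_eq_fintype_card, Fintype.card_coe]
  exact (Multiset.toFinset_card_le _).trans (Polynomial.card_nthRoots p _)

end NodeData

end FA.RT.Tate
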