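import Fermat.Agent.RT.CurveResidual
import Fermat.Agent.JTorsion.CycloRes
import Mathlib.NumberTheory.Padics.RingHoms

/-!
# The `p`-adic representation of an elliptic curve

Compatible parametrisations of the `p`-power torsion by `ℤ_p²` and the matrices of the Galois
action on them.
-/

set_option autoImplicit false
set_option linter.unusedSectionVars false

noncomputable section

open Matrix WeierstrassCurve FA.EC FA.Frob FA.Local
open scoped WeierstrassCurve.Affine

namespace FA.RT.Tate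

local notation "Qb" => AlgebraicClosure ℚ
local notation "GQ" => AlgebraicClosure ℚ ≃ₐ[ℚ] AlgebraicClosure ℚ
local notation "M2" => Matrix (Fin 2) (Fin 2)

variable {p : ℕ} [hp : Fact p.Prime] (W : WeierstrassCurve ℤ) [(ratCurve W).IsElliptic]

/-- The points over the algebraic closure. -/
abbrev Pts (W : WeierstrassCurve ℤ) : Type := ((ratCurve W)⁄Qb).toAffine.Point

theorem mem_torsion_iff {n : ℕ} {x : Pts W} :
    x ∈ Submodule.torsionBy ℤ ((ratCurve W)⁄Qb).Point (n : ℤ) ↔ n • x = 0 := by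
  rw [Submodule.mem_torsionBy_iff, natCast_zsmul]

/-- The torsion points are divisible by `p` among the torsion points. -/
theorem exists_div (n : ℕ) {x : Pts W} (hx : p ^ n • x = 0) :
    ∃ y : Pts W, p ^ (n + 1) • y = 0 ∧ p • y = x := by
  classical
  let T := fun m : ℕ => (Submodule.torsionBy ℤ ((ratCurve W)⁄Qb).Point (m : ℤ)).toAddSubgroup
  have hT : ∀ (m : ℕ) (y : Pts W), y ∈ T m ↔ m • y = 0 := fun m y => mem_torsion_iff W
  have hcard : ∀ m : ℕ, m ≠ 0 → Nat.card (T m) = m ^ 2 := fun m hm =>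
    natCard_torsion (ratCurve W) hm
  have hfin : ∀ m : ℕ, m ≠ 0 → Finite (T m) := fun m hm => finite_torsion (ratCurve W) hm
  have hp0 : ∀ m, p ^ m ≠ 0 := fun m => pow_ne_zero _ hp.out.ne_zero
  have := hfin _ (hp0 n)
  have := hfin _ (hp0 (n + 1))
  have := hfin _ hp.out.ne_zero
  let f : T (p ^ (n + 1)) →+ T (p ^ n) :=
    AddMonoidHom.mk' (fun y => ⟨p • y.1, (hT _ _).mpr (by
        rw [← mul_nsmul', ← pow_succ]; exact (hT _ _).mp y.2)⟩)
      (fun a b => Subtype.ext (nsmul_add _ _ _))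
  have hker : Nat.card f.ker ≤ p ^ 2 := by
    rw [← hcard p hp.out.ne_zero]
    refine Nat.card_le_card_of_injective
      (fun y => (⟨y.1.1, (hT _ _).mpr (congrArg Subtype.val (AddMonoidHom.mem_ker.mp y.2))⟩ : T p))
      fun a b h => Subtype.ext (Subtype.ext (congrArg Subtype.val h :))
  have h1 := AddSubgroup.card_eq_card_quotient_mul_card_addSubgroup f.ker
  rw [hcard _ (hp0 _), Nat.card_congr (QuotientAddGroup.quotientKerEquivRange f).toEquiv] at h1
  have hle : Nat.card (T (p ^ n)) ≤ Nat.card f.range := by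
    rw [hcard _ (hp0 _)]
    refine Nat.le_of_mul_le_mul_right (c := p ^ 2) ?_ (pow_pos hp.out.pos 2)
    calc (p ^ n) ^ 2 * p ^ 2 = (p ^ (n + 1)) ^ 2 := by ring
      _ ≤ Nat.card f.range * p ^ 2 := h1.le.trans (Nat.mul_le_mul_left _ hker)
  have htop : f.range = ⊤ := AddSubgroup.eq_top_of_card_eq _
    (le_antisymm (Nat.card_le_card_of_injective Subtype.val Subtype.val_injective) hle)
  obtain ⟨y, hy⟩ := (AddMonoidHom.range_eq_top.mp htop) ⟨x, (hT _ _).mpr hx⟩
  exact ⟨y.1, (hT _ _).mp y.2, congrArg Subtype.val hy⟩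

theorem exists_seq {x : Pts W} (hx : p • x = 0) : ∃ P : ℕ → Pts W,
    P 1 = x ∧ (∀ n, p ^ n • P n = 0) ∧ ∀ n, p • P (n + 1) = P n := by
  have hstep : ∀ (n : ℕ) (z : { z : Pts W // p ^ n • z = 0 }),
      ∃ y : { z : Pts W // p ^ (n + 1) • z = 0 }, p • y.1 = z.1 := fun n z => by
    obtain ⟨y, h1, h2⟩ := exists_div W n z.2
    exact ⟨⟨y, h1⟩, h2⟩
  choose g hg using hstep
  let S : ∀ k : ℕ, { z : Pts W // p ^ (k + 1) • z = 0 } :=
    fun k => Nat.rec ⟨x, by rw [pow_one]; exact hx⟩ (fun k z => g (k + 1) z) k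
  refine ⟨fun n => match n with | 0 => (0 : Pts W) | k + 1 => (S k).1, rfl, fun n => ?_, fun n => ?_⟩
  · cases n with
    | zero => exact nsmul_zero _
    | succ k => exact (S k).2
  · cases n with
    | zero => exact hx
    | succ k => exact hg (k + 1) (S k)

/-- A compatible system of parametrisations of the `p`-power torsion. -/
structure TateBasis (p : ℕ) [Fact p.Prime] (W : WeierstrassCurve ℤ) [(ratCurve W).IsElliptic] where
  /-- the parametrisation of the torsion of order `p ^ n` -/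
  φ : ℕ → (Fin 2 → ℤ_[p]) →+ Pts W
  surj : ∀ n x, p ^ n • x = 0 → ∃ v, φ n v = x
  ker : ∀ n v, φ n v = 0 ↔ ∀ i, PadicInt.toZModPow n (v i) = 0
  compat : ∀ n v, p • φ (n + 1) v = φ n v
  base : ∀ i, φ 1 (Pi.single i 1) = (torsBasis (p := p) W i).1

theorem exists_tateBasis : Nonempty (TateBasis p W) := by
  classical
  have hb : ∀ i, p • ((torsBasis (p := p) W i).1 : Pts W) = 0 := fun i => nsmul_torsion _
  choose P hP1 hP0 hPc using fun i => exists_seq W (hb i)
  let f : ∀ (n : ℕ) (_i : Fin 2), ZMod (p ^ n) →+ Pts W := fun n i =>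
    ZMod.lift (p ^ n) ⟨zmultiplesHom _ (P i n), by
      show ((p ^ n : ℕ) : ℤ) • P i n = 0
      rw [natCast_zsmul, hP0]⟩
  have hf : ∀ n i (k : ℕ), f n i (k : ZMod (p ^ n)) = k • P i n := fun n i k => by
    rw [← Int.cast_natCast k, ZMod.lift_coe]
    simp
  let φ : ℕ → (Fin 2 → ℤ_[p]) →+ Pts W := fun n =>
    ∑ i, ((f n i).comp (PadicInt.toZModPow n).toAddMonoidHom).comp
      (Pi.evalAddMonoidHom (fun _ : Fin 2 => ℤ_[p]) i)
  have hφ : ∀ n v, φ n v = f n 0 (PadicInt.toZModPow n (v 0)) + f n 1 (PadicInt.toZModPow n (v 1)) :=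
    fun n v => by simp [φ, Fin.sum_univ_two]
  have hcomp : ∀ n v, p • φ (n + 1) v = φ n v := fun n v => by
    have : ∀ i, p • f (n + 1) i (PadicInt.toZModPow (n + 1) (v i)) =
        f n i (PadicInt.toZModPow n (v i)) := fun i => by
      have : NeZero (p ^ (n + 1)) := ⟨pow_ne_zero _ hp.out.ne_zero⟩
      obtain ⟨k, hk⟩ : ∃ k : ℕ, (k : ZMod (p ^ (n + 1))) = PadicInt.toZModPow (n + 1) (v i) :=
        ⟨_, ZMod.natCast_zmod_val _⟩
      rw [← PadicInt.cast_toZModPow n (n + 1) (Nat.le_succ n) (v i), ← hk, hf,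
        ZMod.cast_natCast (pow_dvd_pow p (Nat.le_succ n)), hf, smul_comm, hPc]
    rw [hφ, hφ, nsmul_add, this, this]
  have hbase : ∀ i, φ 1 (Pi.single i 1) = (torsBasis (p := p) W i).1 := fun i => by
    have h1 : ∀ j, f 1 j 1 = P j 1 := fun j => by
      rw [← Nat.cast_one (R := ZMod (p ^ 1)), hf, one_smul]
    fin_cases i <;> simp [hφ, h1, hP1]
  have hpow : ∀ n k v, p ^ k • φ (n + k) v = φ n v := fun n k v => by
    induction k with
    | zero => simp
    | succ k ih => rw [pow_succ, mul_nsmul', ← add_assoc, hcomp, ih]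
  have hsurj : ∀ n x, p ^ n • x = 0 → ∃ v, φ n v = x := by
    intro n
    induction n with
    | zero => exact fun x hx => ⟨0, by rw [map_zero]; simpa using hx.symm⟩
    | succ n ih =>
      intro x hx
      obtain ⟨v, hv⟩ := ih (p • x) (by rw [← mul_nsmul', ← pow_succ, hx])
      let y : Submodule.torsionBy ℤ ((ratCurve W)⁄Qb).Point (p : ℤ) :=
        ⟨x - φ (n + 1) v, (mem_torsion_iff W).mpr (by rw [nsmul_sub, hcomp, hv, sub_self])⟩
      have hy : x - φ (n + 1) v =
          φ 1 fun i => (((torsBasis (p := p) W).repr y i).val : ℤ_[p]) := by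
        have h1 := congrArg Subtype.val ((torsBasis (p := p) W).sum_repr y)
        refine h1.symm.trans ?_
        have e : ∀ (c : ZMod p) i, ((c • torsBasis (p := p) W i :
            Submodule.torsionBy ℤ ((ratCurve W)⁄Qb).Point (p : ℤ)) : Pts W) =
            c.val • ((torsBasis (p := p) W i).1 : Pts W) := fun c i => by
          conv_lhs => rw [← ZMod.natCast_zmod_val c, Nat.cast_smul_eq_nsmul]
          rfl
        rw [hφ, map_natCast (PadicInt.toZModPow 1), map_natCast (PadicInt.toZModPow 1), hf, hf,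
          hP1, hP1, Fin.sum_univ_two,
          Submodule.coe_add, e, e]
      refine ⟨v + p ^ n • (fun i => (((torsBasis (p := p) W).repr y i).val : ℤ_[p])), ?_⟩
      rw [map_add, map_nsmul, add_comm n 1, hpow 1 n, ← hy, add_comm 1 n, add_sub_cancel]
  refine ⟨⟨φ, hsurj, fun n v => ?_, hcomp, hbase⟩⟩
  -- the kernel, by counting
  have : NeZero (p ^ n) := ⟨pow_ne_zero _ hp.out.ne_zero⟩
  have := finite_torsion (ratCurve W) (n := p ^ n) (NeZero.ne _)
  let ψ : (Fin 2 → ZMod (p ^ n)) → Submodule.torsionBy ℤ ((ratCurve W)⁄Qb).Point ((p ^ n : ℕ) : ℤ) :=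
    fun a => ⟨f n 0 (a 0) + f n 1 (a 1), (mem_torsion_iff W).mpr (by
      have h0 : ∀ i (c : ZMod (p ^ n)), p ^ n • f n i c = 0 := fun i c => by
        rw [← map_nsmul, nsmul_eq_mul, ZMod.natCast_self, zero_mul, map_zero]
      rw [nsmul_add, h0, h0, add_zero])⟩
  have hψs : Function.Surjective ψ := fun x => by
    obtain ⟨w, hw⟩ := hsurj n x.1 ((mem_torsion_iff W).mp x.2)
    exact ⟨fun i => PadicInt.toZModPow n (w i), Subtype.ext ((hφ n w).symm.trans hw)⟩
  have hψ := (Nat.bijective_iff_surjective_and_card ψ).mpr ⟨hψs, by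
    rw [natCard_torsion (ratCurve W) (NeZero.ne (p ^ n)), Nat.card_fun, Nat.card_zmod,
      Nat.card_fin]⟩
  constructor
  · intro h
    have h0 : ψ (fun i => PadicInt.toZModPow n (v i)) = ψ 0 :=
      Subtype.ext (((hφ n v).symm.trans h).trans (by simp [ψ]))
    exact congrFun (hψ.1 h0)
  · intro h
    rw [hφ, h, h, map_zero, map_zero, add_zero]

namespace TateBasis

variable {W} (B : TateBasis p W)

theorem nsmul_phi (n : ℕ) (v : Fin 2 → ℤ_[p]) : p ^ n • B.φ n v = 0 := by
  rw [← map_nsmul, B.ker]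
  intro i
  rw [Pi.smul_apply, nsmul_eq_mul, map_mul, map_natCast, ZMod.natCast_self, zero_mul]

theorem phi_zero_level (v : Fin 2 → ℤ_[p]) : B.φ 0 v = 0 :=
  (B.ker 0 v).mpr fun _ => (ZMod.subsingleton_iff.mpr (pow_zero p)).elim _ _

theorem phi_eq_iff {n : ℕ} {v w : Fin 2 → ℤ_[p]} :
    B.φ n v = B.φ n w ↔ ∀ i, PadicInt.toZModPow n (v i) = PadicInt.toZModPow n (w i) := by
  rw [← sub_eq_zero, ← map_sub, B.ker]
  simp only [Pi.sub_apply, map_sub, sub_eq_zero]

theorem pow_compat (n k : ℕ) (v : Fin 2 → ℤ_[p]) : p ^ k • B.φ (n + k) v = B.φ n v := by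
  induction k with
  | zero => simp
  | succ k ih => rw [pow_succ, mul_nsmul', ← add_assoc, B.compat, ih]

/-- A compatible sequence of torsion points comes from a vector. -/
theorem exists_vec {x : ℕ → Pts W} (hx : ∀ n, p ^ n • x n = 0) (hc : ∀ n, p • x (n + 1) = x n) :
    ∃ c, ∀ n, B.φ n c = x n := by
  choose v hv using fun n => B.surj n (x n) (hx n)
  have hxc : ∀ m k, p ^ k • x (m + k) = x m := fun m k => by
    induction k with
    | zero => simp
    | succ k ih => rw [pow_succ, mul_nsmul', ← add_assoc, hc, ih]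
  have hcau : ∀ {m n}, m ≤ n → ∀ i,
      PadicInt.toZModPow m (v n i) = PadicInt.toZModPow m (v m i) := fun {m n} hmn => by
    obtain ⟨k, rfl⟩ := Nat.exists_eq_add_of_le hmn
    exact B.phi_eq_iff.mp (by rw [hv, ← B.pow_compat m k, hv, hxc])
  choose c hc' using fun i => (IsAdicComplete.toIsPrecomplete :
      IsPrecomplete (IsLocalRing.maximalIdeal ℤ_[p]) ℤ_[p]).prec (f := fun n => v n i) fun {m n} hmn => by
    rw [SModEq.sub_mem, smul_eq_mul, Ideal.mul_top, PadicInt.maximalIdeal_eq_span_p,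
      Ideal.span_singleton_pow, ← PadicInt.ker_toZModPow, RingHom.mem_ker, map_sub, hcau hmn i,
      sub_self]
  refine ⟨c, fun n => (hv n).symm.trans (B.phi_eq_iff.mpr fun i => ?_) |>.symm⟩
  have h := hc' i n
  rw [SModEq.sub_mem, smul_eq_mul, Ideal.mul_top, PadicInt.maximalIdeal_eq_span_p,
    Ideal.span_singleton_pow, ← PadicInt.ker_toZModPow, RingHom.mem_ker, map_sub, sub_eq_zero] at h
  exact h

theorem phi_mulVec_congr {n : ℕ} {v w : Fin 2 → ℤ_[p]} (M : M2 ℤ_[p])
    (h : B.φ n v = B.φ n w) : B.φ n (M *ᵥ v) = B.φ n (M *ᵥ w) := by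
  have h' := B.phi_eq_iff.mp h
  refine B.phi_eq_iff.mpr fun i => ?_
  rw [RingHom.map_mulVec, RingHom.map_mulVec, show (PadicInt.toZModPow n) ∘ v =
    (PadicInt.toZModPow n) ∘ w from funext h']

theorem exists_matrix (σ : GQ) : ∃ M : M2 ℤ_[p], ∀ n v, σ • B.φ n v = B.φ n (M *ᵥ v) := by
  choose c hc using fun j : Fin 2 => B.exists_vec (x := fun n => σ • B.φ n (Pi.single j 1))
    (fun n => by rw [smul_comm, B.nsmul_phi]; exact gal_smul_zero _ σ)
    (fun n => by rw [smul_comm, B.compat])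
  refine ⟨Matrix.of fun i j => c j i, fun n v => ?_⟩
  have : NeZero (p ^ n) := ⟨pow_ne_zero _ hp.out.ne_zero⟩
  let k : Fin 2 → ℕ := fun i => (PadicInt.toZModPow n (v i)).val
  let v' : Fin 2 → ℤ_[p] := fun i => (k i : ℤ_[p])
  have hv : B.φ n v = B.φ n v' := B.phi_eq_iff.mpr fun i => by
    show _ = PadicInt.toZModPow n (k i : ℤ_[p])
    rw [map_natCast, ZMod.natCast_zmod_val]
  have hv' : v' = k 0 • Pi.single 0 1 + k 1 • Pi.single 1 1 := by
    funext i
    fin_cases i <;> simp [v', nsmul_eq_mul]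
  rw [hv, B.phi_mulVec_congr _ hv, hv', mulVec_add, mulVec_smul, mulVec_smul, mulVec_single_one,
    mulVec_single_one, map_add, map_nsmul, map_nsmul, gal_smul_add, smul_comm σ, smul_comm σ]
  have e : ∀ j, (Matrix.of fun i j => c j i).col j = c j := fun j => rfl
  rw [e, e, map_add, map_nsmul, map_nsmul, hc, hc]

/-- Matrices are determined by their action on the torsion. -/
theorem ext_phi {M M' : M2 ℤ_[p]} (h : ∀ n v, B.φ n (M *ᵥ v) = B.φ n (M' *ᵥ v)) : M = M' := by
  ext i j
  refine PadicInt.ext_of_toZModPow.mp fun n => ?_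
  have := B.phi_eq_iff.mp (h n (Pi.single j 1)) i
  rwa [mulVec_single_one, mulVec_single_one] at this

/-- The `p`-adic representation. -/
def rep : GQ →* M2 ℤ_[p] where
  toFun σ := (B.exists_matrix σ).choose
  map_one' := B.ext_phi fun n v => by
    rw [← (B.exists_matrix 1).choose_spec, one_smul, one_mulVec]
  map_mul' σ τ := B.ext_phi fun n v => by
    rw [← (B.exists_matrix (σ * τ)).choose_spec, mul_smul, (B.exists_matrix τ).choose_spec,
      (B.exists_matrix σ).choose_spec, mulVec_mulVec]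

theorem rep_spec (σ : GQ) (n : ℕ) (v : Fin 2 → ℤ_[p]) :
    σ • B.φ n v = B.φ n (B.rep σ *ᵥ v) :=
  (B.exists_matrix σ).choose_spec n v

/-- An element fixing the torsion of order `p ^ n` is congruent to one. -/
theorem rep_congr_one {σ : GQ} {n : ℕ} (h : ∀ x : Pts W, p ^ n • x = 0 → σ • x = x) :
    (B.rep σ).map (PadicInt.toZModPow n) = 1 := by
  ext i j
  have h' := B.phi_eq_iff.mp
    ((B.rep_spec σ n (Pi.single j 1)).symm.trans (h _ (B.nsmul_phi n _))) i
  rw [mulVec_single_one] at h'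
  rw [Matrix.map_apply]
  exact h'.trans (by rw [Matrix.one_apply, Pi.single_apply, apply_ite (PadicInt.toZModPow n),
    map_one, map_zero])

/-- An element fixing all the `p`-power torsion acts trivially. -/
theorem rep_eq_one {σ : GQ} (h : ∀ (n : ℕ) (x : Pts W), p ^ n • x = 0 → σ • x = x) :
    B.rep σ = 1 :=
  B.ext_phi fun n v => by rw [← B.rep_spec, h n _ (B.nsmul_phi n v), one_mulVec]

/-- Modulo `p ^ n` the representation factors through a finite extension. -/
theorem exists_field (n : ℕ) : ∃ L : IntermediateField ℚ Qb, FiniteDimensional ℚ L ∧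
    ∀ σ : GQ, (∀ a ∈ L, σ a = a) → (B.rep σ).map (PadicInt.toZModPow n) = 1 := by
  obtain ⟨L, hL, h⟩ := FA.EC.galoisFactorsThroughFiniteLevel (ratCurve W) (n := p ^ n)
    (pow_ne_zero _ hp.out.ne_zero)
  refine ⟨L, hL, fun σ hσ => B.rep_congr_one fun x hx => ?_⟩
  exact congrArg Subtype.val (LinearMap.congr_fun (h σ hσ) ⟨x, (mem_torsion_iff W).mpr hx⟩)

/-- Modulo `p` this is the residual representation. -/
theorem rep_toZMod (σ : GQ) (i j : Fin 2) :
    curveRep p W σ i j = ((PadicInt.toZModPow 1 (B.rep σ i j)).val : ZMod p) := by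
  have : NeZero (p ^ 1) := ⟨pow_ne_zero _ hp.out.ne_zero⟩
  let b := torsBasis (p := p) W
  let k : Fin 2 → ℕ := fun i => (PadicInt.toZModPow 1 (B.rep σ i j)).val
  have h1 : σ • b j = (k 0 : ZMod p) • b 0 + (k 1 : ZMod p) • b 1 := Subtype.ext (by
    show σ • (b j).1 = _
    rw [← B.base j, B.rep_spec, mulVec_single_one, Nat.cast_smul_eq_nsmul, Nat.cast_smul_eq_nsmul]
    show _ = k 0 • (b 0).1 + k 1 • (b 1).1
    have hk : k 0 • Pi.single 0 1 + k 1 • Pi.single 1 1 = fun a => ((k a : ℕ) : ℤ_[p]) :=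
      funext fun a => by fin_cases a <;> simp [nsmul_eq_mul]
    rw [← B.base, ← B.base, ← map_nsmul, ← map_nsmul, ← map_add, B.phi_eq_iff]
    intro a
    rw [hk, map_natCast, ZMod.natCast_zmod_val]
    rfl)
  rw [curveRep_apply, LinearMap.toMatrix_apply]
  show b.repr (σ • b j) i = (k i : ZMod p)
  rw [h1]
  fin_cases i <;> simp

end TateBasis

end FA.RT.Tate
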