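import Fermat.Agent.RT.Tate.Good
import Fermat.Agent.JTorsion.PadicRep
import Fermat.Agent.Density.Places

/-!
# The determinant of the `p`-adic representation is the cyclotomic character
-/

set_option autoImplicit false
set_option linter.unusedSectionVars false

noncomputable section

open Matrix WeierstrassCurve FA.EC FA.Frob FA.JTorsion
open scoped WeierstrassCurve.Affine Pointwise

namespace FA.RT.Tate

local notation "Qb" => AlgebraicClosure ℚ
local notation "GQ" => AlgebraicClosure ℚ ≃ₐ[ℚ] AlgebraicClosure ℚ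
local notation "M2" => Matrix (Fin 2) (Fin 2)

variable {p : ℕ} [hp : Fact p.Prime] {W : WeierstrassCurve ℤ} [(ratCurve W).IsElliptic]

theorem TateBasis.det_rep (B : TateBasis p W) (σ : GQ) :
    (B.rep σ).det = ((cycP p σ : ℤ_[p]ˣ) : ℤ_[p]) := by
  have hΔ : W.Δ ≠ 0 := fun h => by
    have := (ratCurve W).isUnit_Δ
    rw [WeierstrassCurve.map_Δ, h, map_zero] at this
    exact not_isUnit_zero this
  refine PadicInt.ext_of_toZModPow.mp fun n => ?_
  let d : GQ →* ZMod (p ^ n) :=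
    ((PadicInt.toZModPow n).toMonoidHom.comp Matrix.detMonoidHom).comp B.rep
  let e : GQ →* ZMod (p ^ n) :=
    ((PadicInt.toZModPow n).toMonoidHom.comp (Units.coeHom ℤ_[p])).comp (cycP p)
  let K := (d.prod e).ker
  obtain ⟨L₁, hL₁, h₁⟩ := B.exists_field n
  obtain ⟨L₂, hL₂, h₂⟩ := exists_field_cycP p n
  have hK : IsOpen (K : Set GQ) :=
    Subgroup.isOpen_mono (H₁ := (L₁ ⊔ L₂).fixingSubgroup) (fun τ hτ => by
      have hfix := (IntermediateField.mem_fixingSubgroup_iff _ _).1 hτ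
      refine MonoidHom.mem_ker.2 (Prod.ext ?_
        (h₂ τ fun a ha => hfix a ((le_sup_right : L₂ ≤ L₁ ⊔ L₂) ha)))
      show PadicInt.toZModPow n (B.rep τ).det = 1
      rw [RingHom.map_det, RingHom.mapMatrix_apply,
        h₁ τ fun a ha => hfix a ((le_sup_left : L₁ ≤ L₁ ⊔ L₂) ha), det_one])
      (IntermediateField.fixingSubgroup_isOpen _)
  show d σ = e σ
  refine FA.Density.forall_of_frobenius_pow K hK (fun τ => d τ = e τ) ?_
    (insert p W.Δ.natAbs.primeFactors) ?_ σ
  · intro τ η hη hτ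
    obtain ⟨h1, h2⟩ := Prod.ext_iff.1 (MonoidHom.mem_ker.1 hη)
    rw [map_mul, map_mul, hτ]
    exact congrArg (e τ * ·) (h1.trans h2.symm)
  · intro q hq hqS A hA τ hτ k
    simp only [Finset.mem_insert, not_or] at hqS
    have hgood : W.IsGoodPrimeFor q := fun hd => hqS.2
      (Nat.mem_primeFactors.mpr ⟨hq, Int.natCast_dvd.mp hd, Int.natAbs_ne_zero.mpr hΔ⟩)
    have h1 : d τ = e τ := by
      show PadicInt.toZModPow n (B.rep τ).det =
        PadicInt.toZModPow n ((cycP p τ : ℤ_[p]ˣ) : ℤ_[p])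
      rw [(B.rep_frobenius hq hA hqS.1 hgood hτ).2, cycP_frobenius p hq hqS.1 hA hτ]
    rw [map_pow, map_pow, h1]

/-- The cyclotomic character modulo `p ^ n`, from the action on roots of unity. -/
theorem cycP_eq_natCast {n a : ℕ} {σ : GQ} (h : ∀ μ : Qb, μ ^ p ^ n = 1 → σ μ = μ ^ a) :
    ((cycP p σ : ℤ_[p]ˣ) : ℤ_[p]).toZModPow n = (a : ZMod (p ^ n)) := by
  rw [cycP_toZModPow]
  symm
  refine modularCyclotomicCharacter.unique Qb _ _ fun t ht => ?_
  have ht' : (t : Qb) ^ p ^ n = 1 := by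
    rw [← Units.val_pow_eq_pow_val, (mem_rootsOfUnity _ t).mp ht, Units.val_one]
  show σ (t : Qb) = _
  rw [h _ ht', ZMod.val_natCast]
  exact pow_eq_pow_mod a ht'

end FA.RT.Tate
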